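import Mathlib
import Fermat.Prelude.Def_FLTPrelim_Modularity

/-!
# P-S48 DS1 (A): mean square bound for the coefficients of a cusp form (Hecke's bound)

For a cusp form `f` of weight `k` for an arithmetic subgroup with strict period `1`, with
`q`-expansion `∑ aₙ qⁿ`:  `∑_{n ≤ M} ‖aₙ‖² ≤ C * M ^ k`.

Proof: Parseval on the horizontal segment at height `t`: `∑ₙ ‖aₙ‖² e^{-4πnt} = ∫₀¹ ‖f(u+it)‖² du`,
and the bound `‖f τ‖ ≤ C / (im τ)^{k/2}` (Mathlib `CuspFormClass.exists_bound`), at `t = 1 / M`.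
-/

set_option autoImplicit false

open UpperHalfPlane hiding I
open Complex MeasureTheory Real
open scoped Manifold

local notation "𝕢" => Function.Periodic.qParam

noncomputable section

namespace Fermat.Agent.S48x.Rankin

/-! ### The analytic core: Parseval on a horizontal segment -/

section Core

variable {f : ℍ → ℂ}

/-- The restriction of `f` to the horizontal line at height `t` is continuous. -/
theorem continuous_slice (hhol : MDiff f) {t : ℝ} (ht : 0 < t) :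
    Continuous (fun u : ℝ => (f ∘ ofComplex) (u + t * I)) := by
  have h1 : ContinuousOn (f ∘ ofComplex) upperHalfPlaneSet :=
    (UpperHalfPlane.mdifferentiable_iff.mp hhol).continuousOn
  refine h1.comp_continuous (by fun_prop) ?_
  intro u
  show 0 < ((u : ℂ) + t * I).im
  simpa using ht

/-- The Fourier coefficients of the slice at height `t` are `aₙ e^{-2πnt}`. -/
theorem fourierCoeffOn_slice (hper : Function.Periodic (f ∘ ofComplex) 1) (hhol : MDiff f)
    (hbdd : IsBoundedAtImInfty f) (n : ℕ) {t : ℝ} (ht : 0 < t) :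
    fourierCoeffOn zero_lt_one (fun u : ℝ => (f ∘ ofComplex) (u + t * I)) (n : ℤ) =
      (qExpansion 1 f).coeff n * Real.exp (-2 * π * n * t) := by
  rw [fourierCoeffOn_eq_integral,
    UpperHalfPlane.qExpansion_coeff_eq_intervalIntegral one_pos hper hhol hbdd n ht]
  simp only [UpperHalfPlane.coe_I, sub_zero, one_div, inv_one, one_smul, ofReal_one, one_mul]
  rw [← intervalIntegral.integral_mul_const]
  refine intervalIntegral.integral_congr fun u _ => ?_
  have him : 0 < ((u : ℂ) + t * I).im := by simpa using ht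
  simp only [fourier_coe_apply, smul_eq_mul]
  rw [comp_ofComplex_of_im_pos f _ him]
  have hq : Complex.exp (2 * π * I * ((-(n : ℤ) : ℤ) : ℂ) * u / ((1 - 0 : ℝ) : ℂ)) =
      (𝕢 1 ((u : ℂ) + t * I) ^ n)⁻¹ * (Real.exp (-2 * π * n * t) : ℂ) := by
    rw [Function.Periodic.qParam, ← Complex.exp_nat_mul, ← Complex.exp_neg, Complex.ofReal_exp,
      ← Complex.exp_add]
    congr 1
    push_cast
    have := I_sq
    ring_nf
    rw [I_sq]
    ring
  rw [hq]
  ring

/-- **Parseval bound on a horizontal line.** -/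
theorem sum_sq_coeff_mul_exp_le (hper : Function.Periodic (f ∘ ofComplex) 1) (hhol : MDiff f)
    (hbdd : IsBoundedAtImInfty f) {t : ℝ} (ht : 0 < t) {B : ℝ}
    (hB : ∀ u : ℝ, ‖(f ∘ ofComplex) (u + t * I)‖ ≤ B) (s : Finset ℕ) :
    ∑ n ∈ s, ‖(qExpansion 1 f).coeff n‖ ^ 2 * Real.exp (-4 * π * n * t) ≤ B ^ 2 := by
  set g : ℝ → ℂ := fun u => (f ∘ ofComplex) (u + t * I) with hg
  have hgc : Continuous g := continuous_slice hhol ht
  have hB0 : 0 ≤ B := (norm_nonneg _).trans (hB 0)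
  have hL2 : MemLp g 2 (volume.restrict (Set.Ioc (0 : ℝ) 1)) :=
    MemLp.of_bound hgc.aestronglyMeasurable B (Filter.Eventually.of_forall hB)
  have hP := hasSum_sq_fourierCoeffOn zero_lt_one hL2
  have hint : ((1 : ℝ) - 0)⁻¹ • ∫ x in (0 : ℝ)..1, ‖g x‖ ^ 2 ≤ B ^ 2 := by
    rw [sub_zero, inv_one, one_smul]
    have h1 : ∫ x in (0 : ℝ)..1, ‖g x‖ ^ 2 ≤ ∫ _x in (0 : ℝ)..1, B ^ 2 := by
      refine intervalIntegral.integral_mono_on zero_le_one ?_ ?_ ?_
      · exact (hgc.norm.pow 2).intervalIntegrable _ _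
      · exact intervalIntegrable_const
      · intro x _
        exact pow_le_pow_left₀ (norm_nonneg _) (hB x) 2
    simpa using h1
  have hsub : ∑ n ∈ s, ‖fourierCoeffOn zero_lt_one g (n : ℤ)‖ ^ 2 ≤
      ((1 : ℝ) - 0)⁻¹ • ∫ x in (0 : ℝ)..1, ‖g x‖ ^ 2 := by
    have h2 := sum_le_hasSum (s.map ⟨((↑) : ℕ → ℤ), Nat.cast_injective⟩)
      (fun i _ => sq_nonneg _) hP
    rwa [Finset.sum_map] at h2
  refine le_trans (le_of_eq ?_) (hsub.trans hint)
  refine Finset.sum_congr rfl fun n _ => ?_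
  rw [hg, fourierCoeffOn_slice hper hhol hbdd n ht, norm_mul, mul_pow, Complex.norm_real,
    Real.norm_of_nonneg (Real.exp_pos _).le, ← Real.exp_nat_mul]
  congr 2
  push_cast
  ring

end Core

/-! ### Cusp forms -/

section CuspForms

variable {k : ℤ} {Γ : Subgroup (GL (Fin 2) ℝ)} [Γ.IsArithmetic] {F : Type*} [FunLike F ℍ ℂ]
  [CuspFormClass F Γ k]

/-- Parseval bound at height `t` for a cusp form with strict period `1`. -/
theorem cuspForm_sum_sq_coeff_mul_exp_le (f : F) (hΓ : (1 : ℝ) ∈ Γ.strictPeriods) {C₀ : ℝ}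
    (hC₀ : ∀ τ : ℍ, ‖f τ‖ ≤ C₀ / τ.im ^ ((k : ℝ) / 2)) {t : ℝ} (ht : 0 < t) (s : Finset ℕ) :
    ∑ n ∈ s, ‖(qExpansion 1 f).coeff n‖ ^ 2 * Real.exp (-4 * π * n * t) ≤
      (C₀ / t ^ ((k : ℝ) / 2)) ^ 2 := by
  have hper : Function.Periodic ((f : ℍ → ℂ) ∘ ofComplex) 1 := by
    have := SlashInvariantFormClass.periodic_comp_ofComplex f hΓ
    simpa using this
  refine sum_sq_coeff_mul_exp_le hper (ModularFormClass.holo f) (ModularFormClass.bdd_at_infty f)
    ht (fun u => ?_) s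
  have him : 0 < ((u : ℂ) + t * I).im := by simpa using ht
  rw [comp_ofComplex_of_im_pos _ _ him]
  refine (hC₀ _).trans (le_of_eq ?_)
  congr 2
  simp [UpperHalfPlane.im]

/-- **Mean square bound** (Hecke): for a cusp form of weight `k` with strict period `1`,
`∑_{1 ≤ n ≤ M} ‖aₙ‖² ≤ C * M ^ k`. -/
theorem exists_meanSquare_bound_of_strictPeriod (f : F) (hΓ : (1 : ℝ) ∈ Γ.strictPeriods) :
    ∃ C : ℝ, 0 ≤ C ∧ ∀ M : ℕ,
      ∑ n ∈ Finset.Icc 1 M, ‖(qExpansion 1 f).coeff n‖ ^ 2 ≤ C * (M : ℝ) ^ k := by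
  obtain ⟨C₀, hC₀⟩ := CuspFormClass.exists_bound f
  refine ⟨Real.exp (4 * π) * C₀ ^ 2, by positivity, fun M => ?_⟩
  rcases Nat.eq_zero_or_pos M with rfl | hM
  · simp only [Finset.Icc_eq_empty_of_lt Nat.zero_lt_one, Finset.sum_empty, Nat.cast_zero]
    have : (0 : ℝ) ≤ (0 : ℝ) ^ k := zpow_nonneg le_rfl k
    positivity
  have hMR : (0 : ℝ) < M := by exact_mod_cast hM
  have ht : (0 : ℝ) < 1 / M := by positivity
  have h1 := cuspForm_sum_sq_coeff_mul_exp_le f hΓ hC₀ ht (Finset.Icc 1 M)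
  have hB : (C₀ / (1 / (M : ℝ)) ^ ((k : ℝ) / 2)) ^ 2 = C₀ ^ 2 * (M : ℝ) ^ k := by
    rw [div_pow, ← Real.rpow_natCast ((1 / (M : ℝ)) ^ ((k : ℝ) / 2)) 2, ← Real.rpow_mul ht.le]
    have : (k : ℝ) / 2 * ((2 : ℕ) : ℝ) = ((k : ℤ) : ℝ) := by push_cast; ring
    rw [this, Real.rpow_intCast, one_div, inv_zpow, div_inv_eq_mul]
  rw [hB] at h1
  have h2 : Real.exp (-(4 * π)) * ∑ n ∈ Finset.Icc 1 M, ‖(qExpansion 1 f).coeff n‖ ^ 2 ≤
      ∑ n ∈ Finset.Icc 1 M, ‖(qExpansion 1 f).coeff n‖ ^ 2 * Real.exp (-4 * π * n * (1 / M)) := by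
    rw [Finset.mul_sum]
    refine Finset.sum_le_sum fun n hn => ?_
    rw [mul_comm]
    refine mul_le_mul_of_nonneg_left (Real.exp_le_exp.mpr ?_) (sq_nonneg _)
    have hn' : (n : ℝ) ≤ M := by exact_mod_cast (Finset.mem_Icc.mp hn).2
    have h3 : (n : ℝ) * (1 / M) ≤ 1 := by
      rw [mul_one_div, div_le_one hMR]
      exact hn'
    have hpi : (0 : ℝ) ≤ 4 * π := by positivity
    nlinarith [mul_le_mul_of_nonneg_left h3 hpi]
  have h4 := h2.trans h1
  have hexp : Real.exp (4 * π) * Real.exp (-(4 * π)) = 1 := by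
    rw [← Real.exp_add, add_neg_cancel, Real.exp_zero]
  calc ∑ n ∈ Finset.Icc 1 M, ‖(qExpansion 1 f).coeff n‖ ^ 2
      = Real.exp (4 * π) * (Real.exp (-(4 * π)) *
          ∑ n ∈ Finset.Icc 1 M, ‖(qExpansion 1 f).coeff n‖ ^ 2) := by
        rw [← mul_assoc, hexp, one_mul]
    _ ≤ Real.exp (4 * π) * (C₀ ^ 2 * (M : ℝ) ^ k) :=
        mul_le_mul_of_nonneg_left h4 (Real.exp_pos _).le
    _ = Real.exp (4 * π) * C₀ ^ 2 * (M : ℝ) ^ k := by ring

end CuspForms

/-! ### Weight one, level `Γ₁(N)` -/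

open CongruenceSubgroup in
/-- **DS1 (A)**: the mean square bound for weight one cusp forms on `Γ₁(N)`, in the shape consumed
by `Fermat.Agent.S48x.Rankin.sum_primes_le` (hypothesis `hmean`). -/
theorem exists_meanSquare_bound {N : ℕ} [NeZero N] (f : CuspForm (Gamma1 N) 1) :
    ∃ C : ℝ, ∀ M : ℕ,
      ∑ n ∈ Finset.Icc 1 M, ‖ModularFormClass.qCoeff f n‖ ^ 2 ≤ C * M := by
  have hΓ : (1 : ℝ) ∈ ((Gamma1 N : Subgroup (GL (Fin 2) ℝ))).strictPeriods := by
    rw [strictPeriods_Gamma1]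
    exact AddSubgroup.mem_zmultiples 1
  obtain ⟨C, -, hC⟩ := exists_meanSquare_bound_of_strictPeriod f hΓ
  refine ⟨C, fun M => ?_⟩
  have := hC M
  rw [zpow_one] at this
  exact this

open CongruenceSubgroup in
/-- General weight version for `Γ₁(N)`. -/
theorem exists_meanSquare_bound_weight {N : ℕ} [NeZero N] {k : ℤ} (f : CuspForm (Gamma1 N) k) :
    ∃ C : ℝ, 0 ≤ C ∧ ∀ M : ℕ,
      ∑ n ∈ Finset.Icc 1 M, ‖ModularFormClass.qCoeff f n‖ ^ 2 ≤ C * (M : ℝ) ^ k := by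
  have hΓ : (1 : ℝ) ∈ ((Gamma1 N : Subgroup (GL (Fin 2) ℝ))).strictPeriods := by
    rw [strictPeriods_Gamma1]
    exact AddSubgroup.mem_zmultiples 1
  exact exists_meanSquare_bound_of_strictPeriod f hΓ

end Fermat.Agent.S48x.Rankin
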