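import Fermat.Agent.S48x.Rankin.Abstract
import Fermat.Agent.S48x.Rankin.MeanSquare

/-!
# P-S48 DS1: the Rankin bound for a weight one Hecke eigen cusp form

Combination of the abstract half (`Abstract.lean`, `sum_primes_le`) and the modular-forms half
(`MeanSquare.lean`, `exists_meanSquare_bound`):
`∑_{p ∈ P} ‖a_p‖² p^{-s} ≤ log (1 / (s - 1)) + C'` for `1 < s ≤ 2`, uniformly in finite sets `P`
of primes not dividing `N`.
-/

set_option autoImplicit false

open CongruenceSubgroup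

namespace Fermat.Agent.S48x.Rankin

/-- A Dirichlet character has norm one at primes not dividing the level. -/
theorem norm_dirichletCharacter_prime {N : ℕ} [NeZero N] (ε : DirichletCharacter ℂ N) {p : ℕ}
    (hp : p.Prime) (hpN : ¬ p ∣ N) : ‖ε (p : ZMod N)‖ = 1 := by
  have hcop : p.Coprime N := (Nat.Prime.coprime_iff_not_dvd hp).mpr hpN
  have hu : IsUnit (p : ZMod N) := (ZMod.isUnit_iff_coprime p N).mpr hcop
  obtain ⟨u, hu'⟩ := hu
  rw [← hu']
  exact DirichletCharacter.unit_norm_eq_one ε u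

/-- **DS1 (Rankin bound).**  For `f`, `ε`, `hf₁`, `hT` as in the frozen statement S48. -/
theorem rankin_bound (N : ℕ) [NeZero N] (ε : DirichletCharacter ℂ N) (f : CuspForm (Gamma1 N) 1)
    (hf₁ : ModularFormClass.qCoeff f 1 = 1)
    (hT : ∀ p : ℕ, p.Prime → ¬ p ∣ N → ∀ n : ℕ,
        ModularFormClass.qCoeff f (p * n) +
            ε (p : ZMod N) * (if p ∣ n then ModularFormClass.qCoeff f (n / p) else 0) =
          ModularFormClass.qCoeff f p * ModularFormClass.qCoeff f n) :
    ∃ C' : ℝ, ∀ s : ℝ, 1 < s → s ≤ 2 → ∀ P : Finset ℕ, (∀ p ∈ P, p.Prime ∧ ¬ p ∣ N) →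
      ∑ p ∈ P, ‖ModularFormClass.qCoeff f p‖ ^ 2 * (p : ℝ) ^ (-s) ≤
        Real.log (1 / (s - 1)) + C' := by
  obtain ⟨C, hC⟩ := exists_meanSquare_bound f
  exact sum_primes_le (fun n => ModularFormClass.qCoeff f n) N (fun p => ε (p : ZMod N))
    (fun p hp hpN => norm_dirichletCharacter_prime ε hp hpN) hf₁ hT C hC

end Fermat.Agent.S48x.Rankin
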