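import Mathlib

set_option autoImplicit false

/-!
# P-S48, block DS1 (Rankin bound), abstract half

For a sequence `a : ℕ → ℂ` which satisfies the Hecke relations of a normalised eigenform with
nebentypus `e` outside a level `N`, and whose mean square is `O(M)`, we prove

  `∑_{p ∈ P} ‖a p‖² p^{-s} ≤ log (1/(s-1)) + C'`   for `1 < s ≤ 2`,

uniformly in the finite set `P` of primes not dividing `N`.  Mathlib only.
-/

namespace Fermat.Agent.S48x.Rankin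

open Finset

/-- The Hecke relations (literally the hypothesis of the frozen statement S48). -/
def HeckeRel (a : ℕ → ℂ) (N : ℕ) (e : ℕ → ℂ) : Prop :=
  ∀ p : ℕ, p.Prime → ¬ p ∣ N → ∀ n : ℕ,
    a (p * n) + e p * (if p ∣ n then a (n / p) else 0) = a p * a n

section Mult

variable {a : ℕ → ℂ} {N : ℕ} {e : ℕ → ℂ}

theorem HeckeRel.prime_mul (hT : HeckeRel a N e) {p : ℕ} (hp : p.Prime) (hpN : ¬ p ∣ N)
    {n : ℕ} (hn : ¬ p ∣ n) : a (p * n) = a p * a n := by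
  have := hT p hp hpN n
  simpa [hn] using this

theorem HeckeRel.prime_mul_of_dvd (hT : HeckeRel a N e) {p : ℕ} (hp : p.Prime) (hpN : ¬ p ∣ N)
    {n : ℕ} (hn : p ∣ n) : a (p * n) = a p * a n - e p * a (n / p) := by
  have := hT p hp hpN n
  rw [if_pos hn] at this
  linear_combination this

theorem HeckeRel.pow_succ_succ (hT : HeckeRel a N e) {p : ℕ} (hp : p.Prime) (hpN : ¬ p ∣ N)
    (k : ℕ) : a (p ^ (k + 2)) = a p * a (p ^ (k + 1)) - e p * a (p ^ k) := by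
  have h := hT.prime_mul_of_dvd hp hpN (n := p ^ (k + 1)) (dvd_pow_self p (Nat.succ_ne_zero k))
  have e1 : p * p ^ (k + 1) = p ^ (k + 2) := by ring
  have e2 : p ^ (k + 1) / p = p ^ k := by
    rw [pow_succ', Nat.mul_div_cancel_left _ hp.pos]
  rw [e1, e2] at h
  exact h

theorem HeckeRel.pow_mul (hT : HeckeRel a N e) (h1 : a 1 = 1) {p : ℕ} (hp : p.Prime)
    (hpN : ¬ p ∣ N) {n : ℕ} (hn : ¬ p ∣ n) (k : ℕ) : a (p ^ k * n) = a (p ^ k) * a n := by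
  induction k using Nat.twoStepInduction with
  | zero => simp [h1]
  | one => simpa using hT.prime_mul hp hpN hn
  | more k ih0 ih1 =>
    have e1 : p ^ (k + 2) * n = p * (p ^ (k + 1) * n) := by ring
    have hd : p ∣ p ^ (k + 1) * n :=
      Dvd.dvd.mul_right (dvd_pow_self p (Nat.succ_ne_zero k)) n
    have e2 : (p ^ (k + 1) * n) / p = p ^ k * n := by
      rw [pow_succ', mul_assoc, Nat.mul_div_cancel_left _ hp.pos]
    rw [e1, hT.prime_mul_of_dvd hp hpN hd, e2, ih1, ih0, hT.pow_succ_succ hp hpN k]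
    ring

/-- Multiplicativity on coprime arguments, the first of which is prime to the level. -/
theorem HeckeRel.map_mul (hT : HeckeRel a N e) (h1 : a 1 = 1) :
    ∀ m : ℕ, Nat.Coprime m N → ∀ n : ℕ, Nat.Coprime m n → a (m * n) = a m * a n := by
  intro m
  induction m using Nat.recOnPosPrimePosCoprime with
  | prime_pow p k hp hk =>
    intro hN n hn
    have hpN : ¬ p ∣ N :=
      (Nat.Prime.coprime_iff_not_dvd hp).1
        (Nat.Coprime.coprime_dvd_left (dvd_pow_self p hk.ne') hN)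
    have hpn : ¬ p ∣ n :=
      (Nat.Prime.coprime_iff_not_dvd hp).1
        (Nat.Coprime.coprime_dvd_left (dvd_pow_self p hk.ne') hn)
    exact hT.pow_mul h1 hp hpN hpn k
  | zero =>
    intro _ n hn
    have : n = 1 := by simpa using hn
    subst this
    simp [h1]
  | one =>
    intro _ n _
    simp [h1]
  | coprime x y hx hy hxy ihx ihy =>
    intro hN n hn
    have hxN : Nat.Coprime x N := (Nat.coprime_mul_iff_left.1 hN).1
    have hyN : Nat.Coprime y N := (Nat.coprime_mul_iff_left.1 hN).2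
    have hxn : Nat.Coprime x n := (Nat.coprime_mul_iff_left.1 hn).1
    have hyn : Nat.Coprime y n := (Nat.coprime_mul_iff_left.1 hn).2
    rw [mul_assoc, ihx hxN (y * n) (Nat.Coprime.mul_right hxy hxn), ihy hyN n hyn,
      ihx hxN y hxy]
    ring

end Mult

section Abel


/-- Abel's inequality: if the partial sums of `b` are at most `C * M` and `w` is nonnegative
and antitone from index `1` on, then `∑ b n w n ≤ C ∑ w n`. -/
theorem abel_le (b w : ℕ → ℝ) (C : ℝ) (hw : ∀ n, 1 ≤ n → w (n + 1) ≤ w n)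
    (hw0 : ∀ n, 0 ≤ w n)
    (hB : ∀ M : ℕ, ∑ n ∈ Icc 1 M, b n ≤ C * M) (M : ℕ) :
    ∑ n ∈ Icc 1 M, b n * w n ≤ C * ∑ n ∈ Icc 1 M, w n := by
  suffices h : (C * M - ∑ n ∈ Icc 1 M, b n) * w (M + 1) ≤
      C * ∑ n ∈ Icc 1 M, w n - ∑ n ∈ Icc 1 M, b n * w n by
    have h0 : 0 ≤ (C * M - ∑ n ∈ Icc 1 M, b n) * w (M + 1) :=
      mul_nonneg (sub_nonneg.2 (hB M)) (hw0 _)
    linarith
  induction M with
  | zero => simp
  | succ M ih =>
    rw [Finset.sum_Icc_succ_top (by omega : 1 ≤ M + 1), Finset.sum_Icc_succ_top (by omega : 1 ≤ M + 1),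
      Finset.sum_Icc_succ_top (by omega : 1 ≤ M + 1)]
    have hmono : w (M + 1 + 1) ≤ w (M + 1) := hw (M + 1) (by omega)
    have hnn : 0 ≤ C * ((M + 1 : ℕ) : ℝ) - (∑ n ∈ Icc 1 M, b n + b (M + 1)) := by
      have := hB (M + 1)
      rw [Finset.sum_Icc_succ_top (by omega : 1 ≤ M + 1)] at this
      linarith
    have h2 : (C * ((M + 1 : ℕ) : ℝ) - (∑ n ∈ Icc 1 M, b n + b (M + 1))) * w (M + 1 + 1) ≤
        (C * ((M + 1 : ℕ) : ℝ) - (∑ n ∈ Icc 1 M, b n + b (M + 1))) * w (M + 1) :=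
      mul_le_mul_of_nonneg_left hmono hnn
    push_cast at h2 ⊢
    nlinarith [ih]

/-- `∑_{n ≤ M} n^{-s} ≤ s/(s-1)`. -/
theorem sum_rpow_neg_le {s : ℝ} (hs : 1 < s) (M : ℕ) :
    ∑ n ∈ Icc 1 M, (n : ℝ) ^ (-s) ≤ s / (s - 1) := by
  rcases Nat.eq_zero_or_pos M with rfl | hM
  · simp
    exact div_nonneg (by linarith) (by linarith)
  have hanti : AntitoneOn (fun x : ℝ => x ^ (-s)) (Set.Icc ((1 : ℕ) : ℝ) (M : ℝ)) := by
    intro x hx y hy hxy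
    have hx0 : (0 : ℝ) < x := by
      have := hx.1
      simp at this
      linarith
    exact Real.rpow_le_rpow_of_nonpos hx0 hxy (by linarith)
  have h1 := AntitoneOn.sum_le_integral_Ico (a := 1) (b := M) hM hanti
  have h2 : ∫ x in ((1 : ℕ) : ℝ)..(M : ℝ), x ^ (-s) =
      ((M : ℝ) ^ (-s + 1) - ((1 : ℕ) : ℝ) ^ (-s + 1)) / (-s + 1) := by
    apply integral_rpow
    right
    refine ⟨by linarith, ?_⟩
    rw [Set.uIcc_of_le (by exact_mod_cast hM)]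
    intro h
    have := h.1
    simp at this
    linarith
  have h3 : ∑ n ∈ Icc 1 M, (n : ℝ) ^ (-s) = 1 + ∑ i ∈ Ico 1 M, ((i + 1 : ℕ) : ℝ) ^ (-s) := by
    have : Icc 1 M = insert 1 (Ico (1 + 1) (M + 1)) := by
      ext n
      simp only [mem_Icc, mem_insert, mem_Ico]
      omega
    rw [this, Finset.sum_insert (by simp),
      ← Finset.sum_Ico_add' (fun n : ℕ => (n : ℝ) ^ (-s)) 1 M 1]
    simp
  rw [h3]
  have h4 : ∑ i ∈ Ico 1 M, ((i + 1 : ℕ) : ℝ) ^ (-s) ≤ 1 / (s - 1) := by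
    refine h1.trans ?_
    rw [h2]
    have hMpos : (0 : ℝ) ≤ (M : ℝ) ^ (-s + 1) := Real.rpow_nonneg (Nat.cast_nonneg _) _
    have : ((M : ℝ) ^ (-s + 1) - ((1 : ℕ) : ℝ) ^ (-s + 1)) / (-s + 1) =
        (1 - (M : ℝ) ^ (-s + 1)) / (s - 1) := by
      rw [Nat.cast_one, Real.one_rpow]
      rw [div_eq_div_iff (by linarith) (by linarith)]
      ring
    rw [this]
    apply div_le_div_of_nonneg_right _ (by linarith)
    linarith
  have : s / (s - 1) = 1 + 1 / (s - 1) := by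
    have hne : s - 1 ≠ 0 := ne_of_gt (by linarith)
    field_simp
    ring
  rw [this]
  linarith

end Abel

open scoped ComplexConjugate

section Local


theorem norm_z_eq (α β : ℂ) (hnorm : ‖α‖ * ‖β‖ = 1) {x : ℝ} (hx0 : 0 ≤ x) :
    ‖α * conj β * (x : ℂ)‖ = x := by
  rw [norm_mul, norm_mul, Complex.norm_conj, hnorm, one_mul, Complex.norm_real,
    Real.norm_of_nonneg hx0]

theorem pow_term_eq (α β : ℂ) (x : ℝ) (n : ℕ) :
    (‖α‖ ^ 2 * x) ^ n + (‖β‖ ^ 2 * x) ^ n + 2 * ((α * conj β * (x : ℂ)) ^ n).re =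
      x ^ n * ‖α ^ n + β ^ n‖ ^ 2 := by
  have h1 : (α * conj β * (x : ℂ)) ^ n = (α ^ n * conj (β ^ n)) * ((x ^ n : ℝ) : ℂ) := by
    rw [mul_pow, mul_pow, map_pow]
    push_cast
    ring
  have h2 : ‖α ^ n + β ^ n‖ ^ 2 =
      (‖α‖ ^ 2) ^ n + (‖β‖ ^ 2) ^ n + 2 * (α ^ n * conj (β ^ n)).re := by
    rw [← Complex.normSq_eq_norm_sq (α ^ n + β ^ n), Complex.normSq_add,
      Complex.normSq_eq_norm_sq, Complex.normSq_eq_norm_sq, norm_pow, norm_pow]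
    ring
  rw [h1, Complex.re_mul_ofReal, h2, mul_pow, mul_pow]
  ring

theorem exp_le_inv (α β : ℂ) (hnorm : ‖α‖ * ‖β‖ = 1) {x : ℝ} (hx0 : 0 ≤ x) (hx1 : x < 1)
    (hu : ‖α‖ ^ 2 * x < 1) (hv : ‖β‖ ^ 2 * x < 1) :
    Real.exp (‖α + β‖ ^ 2 * x) ≤
      1 / ((1 - ‖α‖ ^ 2 * x) * (1 - ‖β‖ ^ 2 * x) * ‖1 - α * conj β * (x : ℂ)‖ ^ 2) := by
  set u : ℝ := ‖α‖ ^ 2 * x with hu_def
  set v : ℝ := ‖β‖ ^ 2 * x with hv_def
  set z : ℂ := α * conj β * (x : ℂ) with hz_def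
  have hu0 : 0 ≤ u := mul_nonneg (sq_nonneg _) hx0
  have hv0 : 0 ≤ v := mul_nonneg (sq_nonneg _) hx0
  have hz : ‖z‖ < 1 := by rw [hz_def, norm_z_eq α β hnorm hx0]; exact hx1
  have hU := Real.hasSum_pow_div_log_of_abs_lt_one (x := u) (by rw [abs_of_nonneg hu0]; exact hu)
  have hV := Real.hasSum_pow_div_log_of_abs_lt_one (x := v) (by rw [abs_of_nonneg hv0]; exact hv)
  have hZ := Complex.hasSum_re (Complex.hasSum_taylorSeries_neg_log' hz)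
  have hsum := (hU.add hV).add (hZ.mul_left 2)
  have hterm : ∀ n : ℕ, u ^ (n + 1) / ((n : ℝ) + 1) + v ^ (n + 1) / ((n : ℝ) + 1) +
      2 * (z ^ (n + 1) / ((n : ℂ) + 1)).re = x ^ (n + 1) * ‖α ^ (n + 1) + β ^ (n + 1)‖ ^ 2 / ((n : ℝ) + 1) := by
    intro n
    have : (z ^ (n + 1) / ((n : ℂ) + 1)).re = (z ^ (n + 1)).re / ((n : ℝ) + 1) := by
      have : ((n : ℂ) + 1) = ((n + 1 : ℕ) : ℂ) := by push_cast; ring
      rw [this, Complex.div_natCast_re]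
      push_cast
      ring
    rw [this, ← pow_term_eq α β x (n + 1)]
    ring
  have hnonneg : ∀ n : ℕ, 0 ≤ u ^ (n + 1) / ((n : ℝ) + 1) + v ^ (n + 1) / ((n : ℝ) + 1) +
      2 * (z ^ (n + 1) / ((n : ℂ) + 1)).re := by
    intro n
    rw [hterm n]
    have : (0 : ℝ) < (n : ℝ) + 1 := by positivity
    positivity
  have h0 := le_hasSum hsum 0 (fun j _ => hnonneg j)
  have h0' : ‖α + β‖ ^ 2 * x ≤ -Real.log (1 - u) + -Real.log (1 - v) + 2 * (-Complex.log (1 - z)).re := by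
    have e := hterm 0
    simp only [Nat.cast_zero, zero_add, pow_one, div_one] at e
    have e2 : u ^ (0 + 1) / ((0 : ℕ) + 1 : ℝ) + v ^ (0 + 1) / ((0 : ℕ) + 1 : ℝ) +
        2 * (z ^ (0 + 1) / (((0 : ℕ) : ℂ) + 1)).re = ‖α + β‖ ^ 2 * x := by
      simp only [Nat.cast_zero, zero_add, pow_one, div_one]
      rw [e]; ring
    rw [← e2]
    exact h0
  have h1z : 1 - z ≠ 0 := by
    intro h
    have : z = 1 := by linear_combination -h
    rw [this] at hz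
    simp at hz
  have hnz : 0 < ‖1 - z‖ := norm_pos_iff.2 h1z
  have hD : 0 < (1 - u) * (1 - v) * ‖1 - z‖ ^ 2 := by
    have : 0 < 1 - u := by linarith
    have : 0 < 1 - v := by linarith
    positivity
  have hlog : Real.log ((1 - u) * (1 - v) * ‖1 - z‖ ^ 2) =
      Real.log (1 - u) + Real.log (1 - v) + 2 * Real.log ‖1 - z‖ := by
    rw [Real.log_mul (by nlinarith) (by positivity), Real.log_mul (by linarith) (by linarith),
      Real.log_pow]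
    push_cast
    ring
  have hre : (-Complex.log (1 - z)).re = -Real.log ‖1 - z‖ := by
    rw [Complex.neg_re, Complex.log_re]
  rw [hre] at h0'
  have h2 : ‖α + β‖ ^ 2 * x ≤ -Real.log ((1 - u) * (1 - v) * ‖1 - z‖ ^ 2) := by
    rw [hlog]; linarith
  calc Real.exp (‖α + β‖ ^ 2 * x) ≤ Real.exp (-Real.log ((1 - u) * (1 - v) * ‖1 - z‖ ^ 2)) :=
        Real.exp_le_exp.2 h2
    _ = 1 / ((1 - u) * (1 - v) * ‖1 - z‖ ^ 2) := by
        rw [Real.exp_neg, Real.exp_log hD, one_div]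



theorem pow_term_sub_eq (α β : ℂ) (x : ℝ) (n : ℕ) :
    (‖α‖ ^ 2 * x) ^ n + (‖β‖ ^ 2 * x) ^ n - 2 * ((α * conj β * (x : ℂ)) ^ n).re =
      x ^ n * ‖α ^ n - β ^ n‖ ^ 2 := by
  have h1 : (α * conj β * (x : ℂ)) ^ n = (α ^ n * conj (β ^ n)) * ((x ^ n : ℝ) : ℂ) := by
    rw [mul_pow, mul_pow, map_pow]
    push_cast
    ring
  have h2 : ‖α ^ n - β ^ n‖ ^ 2 =
      (‖α‖ ^ 2) ^ n + (‖β‖ ^ 2) ^ n - 2 * (α ^ n * conj (β ^ n)).re := by
    rw [← Complex.normSq_eq_norm_sq (α ^ n - β ^ n), Complex.normSq_sub,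
      Complex.normSq_eq_norm_sq, Complex.normSq_eq_norm_sq, norm_pow, norm_pow]
    ring
  rw [h1, Complex.re_mul_ofReal, h2, mul_pow, mul_pow]
  ring

variable {c : ℕ → ℂ} {α β : ℂ}

theorem rec_mul_sub (h0 : c 0 = 1) (h1 : c 1 = α + β)
    (hrec : ∀ k, c (k + 2) = (α + β) * c (k + 1) - α * β * c k) (k : ℕ) :
    c k * (α - β) = α ^ (k + 1) - β ^ (k + 1) := by
  induction k using Nat.twoStepInduction with
  | zero => rw [h0]; ring
  | one => rw [h1]; ring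
  | more k ih0 ih1 =>
    rw [hrec k]
    linear_combination (α + β) * ih1 - α * β * ih0

theorem rec_eq_of_eq (h0 : c 0 = 1) (h1 : c 1 = α + α)
    (hrec : ∀ k, c (k + 2) = (α + α) * c (k + 1) - α * α * c k) (k : ℕ) :
    c k = ((k : ℂ) + 1) * α ^ k := by
  induction k using Nat.twoStepInduction with
  | zero => rw [h0]; simp
  | one => rw [h1]; push_cast; ring
  | more k ih0 ih1 =>
    rw [hrec k, ih0, ih1]
    push_cast
    ring

/-- Summability of `∑ ‖c k‖² x^k` forces `‖α‖² x < 1`. -/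
theorem lt_one_of_summable (hαβ : α ≠ β) (hnorm : ‖α‖ * ‖β‖ = 1)
    (hk : ∀ k, ‖c k‖ * ‖α - β‖ = ‖α ^ (k + 1) - β ^ (k + 1)‖) {x : ℝ} (hx0 : 0 < x) (hx1 : x < 1)
    (hs : Summable fun k : ℕ => ‖c k‖ ^ 2 * x ^ k) : ‖α‖ ^ 2 * x < 1 := by
  by_contra hcon
  rw [not_lt] at hcon
  have hA0 : 0 ≤ ‖α‖ := norm_nonneg _
  have hA1 : 1 < ‖α‖ := by
    by_contra h
    rw [not_lt] at h
    have : ‖α‖ ^ 2 ≤ 1 := by nlinarith
    nlinarith
  have hB1 : ‖β‖ ≤ 1 := by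
    by_contra h
    rw [not_le] at h
    nlinarith
  have hd : 0 < ‖α - β‖ := norm_pos_iff.2 (sub_ne_zero.2 hαβ)
  set δ : ℝ := ((‖α‖ - 1) / ‖α - β‖) ^ 2 with hδ
  have hδpos : 0 < δ := by
    have : 0 < (‖α‖ - 1) / ‖α - β‖ := div_pos (by linarith) hd
    positivity
  have hlow : ∀ k : ℕ, δ ≤ ‖c k‖ ^ 2 * x ^ k := by
    intro k
    have h1 : ‖α‖ ^ (k + 1) - 1 ≤ ‖c k‖ * ‖α - β‖ := by
      rw [hk k]
      have h2 : ‖α ^ (k + 1)‖ - ‖β ^ (k + 1)‖ ≤ ‖α ^ (k + 1) - β ^ (k + 1)‖ :=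
        norm_sub_norm_le _ _
      rw [norm_pow, norm_pow] at h2
      have h3 : ‖β‖ ^ (k + 1) ≤ 1 := pow_le_one₀ (norm_nonneg _) hB1
      linarith
    have h4 : ‖α‖ ^ k * (‖α‖ - 1) ≤ ‖α‖ ^ (k + 1) - 1 := by
      have : 1 ≤ ‖α‖ ^ k := one_le_pow₀ hA1.le
      rw [pow_succ]
      nlinarith
    have h5 : ‖α‖ ^ k * (‖α‖ - 1) ≤ ‖c k‖ * ‖α - β‖ := h4.trans h1
    have h6 : 0 ≤ ‖α‖ ^ k * (‖α‖ - 1) := mul_nonneg (pow_nonneg hA0 _) (by linarith)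
    have h7 : (‖α‖ ^ k * (‖α‖ - 1)) ^ 2 ≤ (‖c k‖ * ‖α - β‖) ^ 2 :=
      pow_le_pow_left₀ h6 h5 2
    have h8 : 1 ≤ (‖α‖ ^ 2 * x) ^ k := one_le_pow₀ hcon
    have h9 : (‖α‖ - 1) ^ 2 ≤ (‖c k‖ * ‖α - β‖) ^ 2 * x ^ k := by
      have hxk : 0 ≤ x ^ k := pow_nonneg hx0.le _
      calc (‖α‖ - 1) ^ 2 ≤ (‖α‖ ^ 2 * x) ^ k * (‖α‖ - 1) ^ 2 :=
            le_mul_of_one_le_left (sq_nonneg _) h8
        _ = (‖α‖ ^ k * (‖α‖ - 1)) ^ 2 * x ^ k := by rw [mul_pow, ← pow_mul]; ring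
        _ ≤ (‖c k‖ * ‖α - β‖) ^ 2 * x ^ k := mul_le_mul_of_nonneg_right h7 hxk
    rw [hδ, div_pow, div_le_iff₀ (by positivity)]
    calc (‖α‖ - 1) ^ 2 ≤ (‖c k‖ * ‖α - β‖) ^ 2 * x ^ k := h9
      _ = ‖c k‖ ^ 2 * x ^ k * ‖α - β‖ ^ 2 := by ring
  have htend := hs.tendsto_atTop_zero
  have hev := (tendsto_order.1 htend).2 δ hδpos
  obtain ⟨k, hk'⟩ := hev.exists
  exact absurd (hlow k) (not_le.2 hk')



theorem real_identity (u v a : ℝ) (hu : 1 - u ≠ 0) (hv : 1 - v ≠ 0)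
    (hD : 1 - 2 * a + u * v ≠ 0) (hne : u + v - 2 * a ≠ 0) :
    (u + v - 2 * a)⁻¹ * (u * (1 - u)⁻¹ + v * (1 - v)⁻¹ - 2 * ((a - u * v) / (1 - 2 * a + u * v))) =
      (1 - u * v) / ((1 - u) * (1 - v) * (1 - 2 * a + u * v)) := by
  field_simp
  ring

theorem re_mul_inv_one_sub (z : ℂ) (hz : 1 - z ≠ 0) :
    (z * (1 - z)⁻¹).re = (z.re - ‖z‖ ^ 2) / (1 - 2 * z.re + ‖z‖ ^ 2) := by
  have hn : Complex.normSq (1 - z) ≠ 0 := (Complex.normSq_pos.2 hz).ne'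
  have hn' : Complex.normSq (1 - z) = 1 - 2 * z.re + ‖z‖ ^ 2 := by
    rw [← Complex.normSq_eq_norm_sq, Complex.normSq_apply, Complex.normSq_apply]
    simp
    ring
  rw [Complex.mul_re, Complex.inv_re, Complex.inv_im, ← hn', ← Complex.normSq_eq_norm_sq z,
    Complex.normSq_apply z]
  simp
  field_simp
  ring

theorem norm_one_sub_sq (z : ℂ) : ‖1 - z‖ ^ 2 = 1 - 2 * z.re + ‖z‖ ^ 2 := by
  rw [← Complex.normSq_eq_norm_sq, ← Complex.normSq_eq_norm_sq, Complex.normSq_apply,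
    Complex.normSq_apply]
  simp
  ring


theorem hasSum_of_ne (hαβ : α ≠ β) (hnorm : ‖α‖ * ‖β‖ = 1)
    (hk : ∀ k, c k * (α - β) = α ^ (k + 1) - β ^ (k + 1)) {x : ℝ} (hx0 : 0 < x) (hx1 : x < 1)
    (hu : ‖α‖ ^ 2 * x < 1) (hv : ‖β‖ ^ 2 * x < 1) :
    HasSum (fun k : ℕ => ‖c k‖ ^ 2 * x ^ k)
      ((1 - x ^ 2) /
        ((1 - ‖α‖ ^ 2 * x) * (1 - ‖β‖ ^ 2 * x) * ‖1 - α * conj β * (x : ℂ)‖ ^ 2)) := by
  set u : ℝ := ‖α‖ ^ 2 * x with hu_def
  set v : ℝ := ‖β‖ ^ 2 * x with hv_def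
  set z : ℂ := α * conj β * (x : ℂ) with hz_def
  have hu0 : 0 ≤ u := mul_nonneg (sq_nonneg _) hx0.le
  have hv0 : 0 ≤ v := mul_nonneg (sq_nonneg _) hx0.le
  have hzn : ‖z‖ = x := norm_z_eq α β hnorm hx0.le
  have hz : ‖z‖ < 1 := by rw [hzn]; exact hx1
  have h1z : 1 - z ≠ 0 := by
    intro h
    have : z = 1 := by linear_combination -h
    rw [this] at hz
    simp at hz
  have huv : u * v = x ^ 2 := by
    rw [hu_def, hv_def]
    have : (‖α‖ * ‖β‖) ^ 2 = 1 := by rw [hnorm]; ring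
    nlinarith [this]
  have hd : 0 < ‖α - β‖ := norm_pos_iff.2 (sub_ne_zero.2 hαβ)
  have hne : u + v - 2 * z.re = x * ‖α - β‖ ^ 2 := by
    have := pow_term_sub_eq α β x 1
    simp only [pow_one] at this
    exact this
  have hnepos : 0 < u + v - 2 * z.re := by rw [hne]; positivity
  have hterm : ∀ k : ℕ, (u + v - 2 * z.re) * (‖c k‖ ^ 2 * x ^ k) =
      u * u ^ k + v * v ^ k - 2 * (z * z ^ k).re := by
    intro k
    have := pow_term_sub_eq α β x (k + 1)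
    rw [← hk k, norm_mul] at this
    rw [← pow_succ', ← pow_succ', ← pow_succ', this, hne]
    ring
  have hU := (hasSum_geometric_of_lt_one hu0 hu).mul_left u
  have hV := (hasSum_geometric_of_lt_one hv0 hv).mul_left v
  have hZ := Complex.hasSum_re ((hasSum_geometric_of_norm_lt_one hz).mul_left z)
  have hsum := ((hU.add hV).sub (hZ.mul_left 2)).mul_left (u + v - 2 * z.re)⁻¹
  have hfun : (fun k : ℕ => ‖c k‖ ^ 2 * x ^ k) =
      fun k : ℕ => (u + v - 2 * z.re)⁻¹ * (u * u ^ k + v * v ^ k - 2 * (z * z ^ k).re) := by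
    funext k
    rw [← hterm k, inv_mul_cancel_left₀ hnepos.ne']
  have hD : 1 - 2 * z.re + u * v ≠ 0 := by
    have h := norm_one_sub_sq z
    rw [hzn, ← huv] at h
    rw [← h]
    have : 0 < ‖1 - z‖ := norm_pos_iff.2 h1z
    positivity
  have hval : (1 - x ^ 2) / ((1 - u) * (1 - v) * ‖1 - z‖ ^ 2) =
      (u + v - 2 * z.re)⁻¹ * (u * (1 - u)⁻¹ + v * (1 - v)⁻¹ - 2 * (z * (1 - z)⁻¹).re) := by
    rw [re_mul_inv_one_sub z h1z, norm_one_sub_sq, hzn, ← huv,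
      real_identity u v z.re (by linarith) (by linarith) hD hnepos.ne']
  rw [hfun, hval]
  exact hsum



theorem hasSum_succ_sq_mul_pow {x : ℝ} (hx0 : 0 ≤ x) (hx1 : x < 1) :
    HasSum (fun k : ℕ => ((k : ℝ) + 1) ^ 2 * x ^ k) ((1 + x) / (1 - x) ^ 3) := by
  have hx : ‖x‖ < 1 := by rw [Real.norm_of_nonneg hx0]; exact hx1
  have h2 := (hasSum_choose_mul_geometric_of_norm_lt_one 2 hx).mul_left 2
  have h1 := hasSum_choose_mul_geometric_of_norm_lt_one 1 hx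
  have h := h2.sub h1
  have hne : (1 - x) ≠ 0 := by linarith
  have hval : 2 * (1 / (1 - x) ^ (2 + 1)) - 1 / (1 - x) ^ (1 + 1) = (1 + x) / (1 - x) ^ 3 := by
    field_simp
    ring
  rw [hval] at h
  have hfun : (fun k : ℕ => ((k : ℝ) + 1) ^ 2 * x ^ k) = fun b : ℕ =>
      2 * ((((b + 2).choose 2 : ℕ) : ℝ) * x ^ b) - (((b + 1).choose 1 : ℕ) : ℝ) * x ^ b := by
    funext k
    rw [Nat.cast_choose_two, Nat.choose_one_right]
    push_cast
    ring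
  rw [hfun]
  exact h


theorem hasSum_of_eq {c : ℕ → ℂ} {α : ℂ} (hα : ‖α‖ = 1) (hk : ∀ k : ℕ, c k = ((k : ℂ) + 1) * α ^ k) {x : ℝ}
    (hx0 : 0 ≤ x) (hx1 : x < 1) :
    HasSum (fun k : ℕ => ‖c k‖ ^ 2 * x ^ k)
      ((1 - x ^ 2) /
        ((1 - ‖α‖ ^ 2 * x) * (1 - ‖α‖ ^ 2 * x) * ‖1 - α * conj α * (x : ℂ)‖ ^ 2)) := by
  have hfun : (fun k : ℕ => ‖c k‖ ^ 2 * x ^ k) = fun k : ℕ => ((k : ℝ) + 1) ^ 2 * x ^ k := by
    funext k
    rw [hk k, norm_mul, norm_pow, hα, one_pow, mul_one]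
    have : ((k : ℂ) + 1) = ((k + 1 : ℕ) : ℂ) := by push_cast; ring
    rw [this, Complex.norm_natCast]
    push_cast
    ring
  have hz : α * conj α = 1 := by
    rw [Complex.mul_conj, Complex.normSq_eq_norm_sq, hα]
    simp
  have hn : ‖1 - α * conj α * (x : ℂ)‖ = 1 - x := by
    rw [hz, one_mul]
    have : (1 : ℂ) - (x : ℂ) = ((1 - x : ℝ) : ℂ) := by push_cast; ring
    rw [this, Complex.norm_real, Real.norm_of_nonneg (by linarith)]
  have hne : (1 - x) ≠ 0 := by linarith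
  have hval : (1 - x ^ 2) /
        ((1 - ‖α‖ ^ 2 * x) * (1 - ‖α‖ ^ 2 * x) * ‖1 - α * conj α * (x : ℂ)‖ ^ 2) =
      (1 + x) / (1 - x) ^ 3 := by
    rw [hn, hα]
    field_simp
    ring
  rw [hfun, hval]
  exact hasSum_succ_sq_mul_pow hx0 hx1

/-- **Local inequality.**  If `c k = h_k(α, β)` (complete homogeneous polynomials, given by the
Hecke recursion) with `|αβ| = 1`, then
`∑ ‖c k‖² x^k ≥ (1 - x²) exp (‖α + β‖² x)` whenever the series converges. -/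
theorem local_ineq {c : ℕ → ℂ} {α β : ℂ} (h0 : c 0 = 1) (h1 : c 1 = α + β)
    (hrec : ∀ k, c (k + 2) = (α + β) * c (k + 1) - α * β * c k) (hnorm : ‖α‖ * ‖β‖ = 1)
    {x : ℝ} (hx0 : 0 ≤ x) (hx1 : x < 1) (hs : Summable fun k : ℕ => ‖c k‖ ^ 2 * x ^ k) :
    (1 - x ^ 2) * Real.exp (‖α + β‖ ^ 2 * x) ≤ ∑' k : ℕ, ‖c k‖ ^ 2 * x ^ k := by
  rcases hx0.eq_or_lt with rfl | hxpos
  · rw [tsum_eq_single 0 (fun k hk => by simp [hk])]
    simp [h0]
  have h1x : 0 ≤ 1 - x ^ 2 := by nlinarith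
  by_cases hαβ : α = β
  · subst hαβ
    have hα : ‖α‖ = 1 := by nlinarith [norm_nonneg α]
    have hk := rec_eq_of_eq h0 h1 hrec
    have hsum := hasSum_of_eq hα hk hx0 hx1
    have hux : ‖α‖ ^ 2 * x < 1 := by rw [hα]; simpa using hx1
    have hexp := exp_le_inv α α hnorm hx0 hx1 hux hux
    rw [hsum.tsum_eq]
    calc (1 - x ^ 2) * Real.exp (‖α + α‖ ^ 2 * x)
        ≤ (1 - x ^ 2) * (1 / ((1 - ‖α‖ ^ 2 * x) * (1 - ‖α‖ ^ 2 * x) *
            ‖1 - α * conj α * (x : ℂ)‖ ^ 2)) := mul_le_mul_of_nonneg_left hexp h1x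
      _ = _ := by rw [mul_one_div]
  · have hkk := rec_mul_sub h0 h1 hrec
    have hk : ∀ k, ‖c k‖ * ‖α - β‖ = ‖α ^ (k + 1) - β ^ (k + 1)‖ := fun k => by
      rw [← norm_mul, hkk k]
    have hu := lt_one_of_summable hαβ hnorm hk hxpos hx1 hs
    have hv := lt_one_of_summable (α := β) (β := α) (Ne.symm hαβ)
      (by rw [mul_comm]; exact hnorm)
      (fun k => by rw [norm_sub_rev, hk k, norm_sub_rev]) hxpos hx1 hs
    have hsum := hasSum_of_ne hαβ hnorm hkk hxpos hx1 hu hv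
    have hexp := exp_le_inv α β hnorm hx0 hx1 hu hv
    rw [hsum.tsum_eq]
    calc (1 - x ^ 2) * Real.exp (‖α + β‖ ^ 2 * x)
        ≤ (1 - x ^ 2) * (1 / ((1 - ‖α‖ ^ 2 * x) * (1 - ‖β‖ ^ 2 * x) *
            ‖1 - α * conj β * (x : ℂ)‖ ^ 2)) := mul_le_mul_of_nonneg_left hexp h1x
      _ = _ := by rw [mul_one_div]

end Local

section Global

variable (a : ℕ → ℂ) (N : ℕ)

/-- The Dirichlet coefficients `‖a n‖² n^{-s}` restricted to `n` prime to `N`. -/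
noncomputable def dirCoeff (s : ℝ) (n : ℕ) : ℝ :=
  (if Nat.Coprime n N then ‖a n‖ ^ 2 else 0) * (n : ℝ) ^ (-s)

theorem dirCoeff_nonneg (s : ℝ) (n : ℕ) : 0 ≤ dirCoeff a N s n := by
  unfold dirCoeff
  have : (0 : ℝ) ≤ (n : ℝ) ^ (-s) := Real.rpow_nonneg (Nat.cast_nonneg _) _
  split_ifs
  · positivity
  · simp

theorem dirCoeff_zero {s : ℝ} (hs : s ≠ 0) : dirCoeff a N s 0 = 0 := by
  simp [dirCoeff, Real.zero_rpow (neg_ne_zero.2 hs)]

variable {a N}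

theorem dirCoeff_one (h1 : a 1 = 1) (s : ℝ) : dirCoeff a N s 1 = 1 := by
  simp [dirCoeff, h1]

theorem dirCoeff_mul {e : ℕ → ℂ} (hT : HeckeRel a N e) (h1 : a 1 = 1) (s : ℝ) {m n : ℕ}
    (hmn : Nat.Coprime m n) : dirCoeff a N s (m * n) = dirCoeff a N s m * dirCoeff a N s n := by
  unfold dirCoeff
  have hcast : (((m * n : ℕ)) : ℝ) ^ (-s) = (m : ℝ) ^ (-s) * (n : ℝ) ^ (-s) := by
    rw [Nat.cast_mul, Real.mul_rpow (Nat.cast_nonneg _) (Nat.cast_nonneg _)]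
  by_cases hm : Nat.Coprime m N
  · by_cases hn : Nat.Coprime n N
    · have hmnN : Nat.Coprime (m * n) N := Nat.coprime_mul_iff_left.2 ⟨hm, hn⟩
      rw [if_pos hmnN, if_pos hm, if_pos hn, hT.map_mul h1 m hm n hmn, norm_mul, hcast]
      ring
    · have hmnN : ¬ Nat.Coprime (m * n) N := fun h => hn (Nat.coprime_mul_iff_left.1 h).2
      rw [if_neg hmnN, if_neg hn]
      ring
  · have hmnN : ¬ Nat.Coprime (m * n) N := fun h => hm (Nat.coprime_mul_iff_left.1 h).1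
    rw [if_neg hmnN, if_neg hm]
    ring

theorem sum_dirCoeff_le {C : ℝ} (hmean : ∀ M : ℕ, ∑ n ∈ Icc 1 M, ‖a n‖ ^ 2 ≤ C * M) {s : ℝ}
    (hs : 1 < s) (M : ℕ) : ∑ n ∈ Icc 1 M, dirCoeff a N s n ≤ C * (s / (s - 1)) := by
  have hC0 : 0 ≤ C := by
    have := hmean 1
    simp at this
    exact le_trans (sq_nonneg _) this
  have hB : ∀ M : ℕ, ∑ n ∈ Icc 1 M, (if Nat.Coprime n N then ‖a n‖ ^ 2 else 0) ≤ C * M := by
    intro M
    refine le_trans (Finset.sum_le_sum fun n _ => ?_) (hmean M)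
    split_ifs
    · exact le_rfl
    · positivity
  have hw : ∀ n : ℕ, 1 ≤ n → ((n + 1 : ℕ) : ℝ) ^ (-s) ≤ (n : ℝ) ^ (-s) := by
    intro n hn
    apply Real.rpow_le_rpow_of_nonpos (by exact_mod_cast hn) (by push_cast; linarith)
      (by linarith)
  have h := abel_le (fun n => if Nat.Coprime n N then ‖a n‖ ^ 2 else 0)
    (fun n : ℕ => (n : ℝ) ^ (-s)) C hw
    (fun n => Real.rpow_nonneg (Nat.cast_nonneg _) _) hB M
  exact h.trans (mul_le_mul_of_nonneg_left (sum_rpow_neg_le hs M) hC0)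

theorem sum_range_dirCoeff_le {C : ℝ} (hmean : ∀ M : ℕ, ∑ n ∈ Icc 1 M, ‖a n‖ ^ 2 ≤ C * M)
    {s : ℝ} (hs : 1 < s) (n : ℕ) : ∑ i ∈ range n, dirCoeff a N s i ≤ C * (s / (s - 1)) := by
  have hsub : range n ⊆ insert 0 (Icc 1 n) := by
    intro i hi
    simp only [mem_insert, mem_Icc]
    have := mem_range.1 hi
    omega
  refine le_trans (Finset.sum_le_sum_of_subset_of_nonneg hsub
    (fun i _ _ => dirCoeff_nonneg a N s i)) ?_
  rw [Finset.sum_insert (by simp), dirCoeff_zero a N (by linarith : s ≠ 0), zero_add]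
  exact sum_dirCoeff_le hmean hs n

theorem summable_dirCoeff {C : ℝ} (hmean : ∀ M : ℕ, ∑ n ∈ Icc 1 M, ‖a n‖ ^ 2 ≤ C * M)
    {s : ℝ} (hs : 1 < s) : Summable (dirCoeff a N s) :=
  summable_of_sum_range_le (dirCoeff_nonneg a N s) (sum_range_dirCoeff_le hmean hs)

theorem tsum_dirCoeff_le {C : ℝ} (hmean : ∀ M : ℕ, ∑ n ∈ Icc 1 M, ‖a n‖ ^ 2 ≤ C * M)
    {s : ℝ} (hs : 1 < s) : ∑' n, dirCoeff a N s n ≤ C * (s / (s - 1)) :=
  Real.tsum_le_of_sum_range_le (dirCoeff_nonneg a N s) (sum_range_dirCoeff_le hmean hs)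

end Global

section Global2

variable {a : ℕ → ℂ} {N : ℕ}

theorem exists_roots (A E : ℂ) : ∃ α β : ℂ, α + β = A ∧ α * β = E := by
  obtain ⟨sq, hsq⟩ := IsAlgClosed.exists_eq_mul_self (discrim 1 (-A) E)
  obtain ⟨α, hα⟩ := exists_quadratic_eq_zero (a := (1 : ℂ)) (b := -A) (c := E) one_ne_zero
    ⟨sq, hsq⟩
  refine ⟨α, A - α, by ring, ?_⟩
  linear_combination -hα

theorem rpow_neg_lt_one {p : ℕ} (hp : p.Prime) {s : ℝ} (hs : 0 < s) : (p : ℝ) ^ (-s) < 1 :=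
  Real.rpow_lt_one_of_one_lt_of_neg (by exact_mod_cast hp.one_lt) (by linarith)

theorem dirCoeff_prime_pow {p : ℕ} (hp : p.Prime) (hpN : ¬ p ∣ N) (s : ℝ) (k : ℕ) :
    dirCoeff a N s (p ^ k) = ‖a (p ^ k)‖ ^ 2 * ((p : ℝ) ^ (-s)) ^ k := by
  unfold dirCoeff
  have hcop : Nat.Coprime (p ^ k) N :=
    Nat.Coprime.pow_left k ((Nat.Prime.coprime_iff_not_dvd hp).2 hpN)
  rw [if_pos hcop, Nat.cast_pow, Real.rpow_pow_comm (Nat.cast_nonneg _)]

/-- The local Euler factor dominates `(1 - p^{-2s}) exp (‖a p‖² p^{-s})`. -/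
theorem local_factor_le {e : ℕ → ℂ} (hT : HeckeRel a N e) (h1 : a 1 = 1)
    (he : ∀ p : ℕ, p.Prime → ¬ p ∣ N → ‖e p‖ = 1) {p : ℕ} (hp : p.Prime) (hpN : ¬ p ∣ N)
    {s : ℝ} (hs : 0 < s) (hsum : Summable (dirCoeff a N s)) :
    (1 - ((p : ℝ) ^ (-s)) ^ 2) * Real.exp (‖a p‖ ^ 2 * (p : ℝ) ^ (-s)) ≤
      ∑' k : ℕ, dirCoeff a N s (p ^ k) := by
  obtain ⟨α, β, hab, hmul⟩ := exists_roots (a p) (e p)
  have hnorm : ‖α‖ * ‖β‖ = 1 := by rw [← norm_mul, hmul, he p hp hpN]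
  have hx0 : (0 : ℝ) ≤ (p : ℝ) ^ (-s) := Real.rpow_nonneg (Nat.cast_nonneg _) _
  have hx1 : (p : ℝ) ^ (-s) < 1 := rpow_neg_lt_one hp hs
  have hfun : (fun k : ℕ => dirCoeff a N s (p ^ k)) =
      fun k : ℕ => ‖a (p ^ k)‖ ^ 2 * ((p : ℝ) ^ (-s)) ^ k := by
    funext k
    exact dirCoeff_prime_pow hp hpN s k
  have hs' : Summable fun k : ℕ => ‖a (p ^ k)‖ ^ 2 * ((p : ℝ) ^ (-s)) ^ k := by
    rw [← hfun]
    exact hsum.comp_injective (Nat.pow_right_injective hp.two_le)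
  have := local_ineq (c := fun k => a (p ^ k)) (α := α) (β := β) (by simpa using h1)
    (by simpa using hab.symm)
    (fun k => by
      show a (p ^ (k + 2)) = (α + β) * a (p ^ (k + 1)) - α * β * a (p ^ k)
      rw [hab, hmul]; exact hT.pow_succ_succ hp hpN k)
    hnorm hx0 hx1 hs'
  rw [hab] at this
  rw [hfun]
  exact this

theorem sum_inv_sq_primes_le (P : Finset ℕ) (hP : ∀ p ∈ P, 2 ≤ p) :
    ∑ p ∈ P, (((p : ℝ)) ^ 2)⁻¹ ≤ 1 := by
  set M : ℕ := P.sup id + 1 with hM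
  have hsub : P ⊆ Ioc 1 M := by
    intro p hp
    have h1 : p ≤ P.sup id := Finset.le_sup (f := id) hp
    have h2 := hP p hp
    simp only [mem_Ioc]
    omega
  refine le_trans (Finset.sum_le_sum_of_subset_of_nonneg hsub (fun i _ _ => by positivity)) ?_
  refine le_trans (sum_Ioc_inv_sq_le_sub (α := ℝ) one_ne_zero (by omega : 1 ≤ M)) ?_
  have hM0 : (0 : ℝ) ≤ (M : ℝ)⁻¹ := by positivity
  have h11 : (((1 : ℕ) : ℝ))⁻¹ = 1 := by norm_num
  rw [h11]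
  linarith

theorem log_one_sub_ge {p : ℕ} (hp : 2 ≤ p) {s : ℝ} (hs : 1 ≤ s) :
    -(2 * (((p : ℝ)) ^ 2)⁻¹) ≤ Real.log (1 - ((p : ℝ) ^ (-s)) ^ 2) := by
  have hp1 : (1 : ℝ) ≤ (p : ℝ) := by exact_mod_cast (by omega : 1 ≤ p)
  have hp2 : (2 : ℝ) ≤ (p : ℝ) := by exact_mod_cast hp
  have hx0 : (0 : ℝ) ≤ (p : ℝ) ^ (-s) := Real.rpow_nonneg (Nat.cast_nonneg _) _
  have hx : (p : ℝ) ^ (-s) ≤ (p : ℝ)⁻¹ := by
    rw [← Real.rpow_neg_one]
    exact Real.rpow_le_rpow_of_exponent_le hp1 (by linarith)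
  set y : ℝ := (((p : ℝ)) ^ 2)⁻¹ with hy
  have hxy : ((p : ℝ) ^ (-s)) ^ 2 ≤ y := by
    rw [hy, ← inv_pow]
    exact pow_le_pow_left₀ hx0 hx 2
  have hy4 : y ≤ 1 / 4 := by
    rw [hy, inv_le_comm₀ (by positivity) (by norm_num)]
    norm_num
    nlinarith
  have hy0 : 0 ≤ y := by rw [hy]; positivity
  have h1 : Real.log (1 - y) ≤ Real.log (1 - ((p : ℝ) ^ (-s)) ^ 2) :=
    Real.log_le_log (by linarith) (by linarith)
  have h2 : 1 - (1 - y)⁻¹ ≤ Real.log (1 - y) :=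
    Real.one_sub_inv_le_log_of_pos (by linarith)
  have h3 : -(2 * y) ≤ 1 - (1 - y)⁻¹ := by
    have hpos : 0 < 1 - y := by linarith
    rw [show (1 : ℝ) - (1 - y)⁻¹ = -(y / (1 - y)) by field_simp; ring]
    rw [neg_le_neg_iff, div_le_iff₀ hpos]
    nlinarith
  linarith

end Global2

section Final

/-- **Rankin bound, abstract form.**  For a sequence `a` satisfying the Hecke relations of a
normalised eigenform with nebentypus `e` (of absolute value one) outside the level `N`, and whose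
mean square is `O(M)`, one has `∑_{p ∈ P} ‖a p‖² p^{-s} ≤ log (1/(s-1)) + C'` for `1 < s ≤ 2`,
uniformly in the finite set `P` of primes not dividing `N`. -/
theorem sum_primes_le (a : ℕ → ℂ) (N : ℕ) (e : ℕ → ℂ)
    (he : ∀ p : ℕ, p.Prime → ¬ p ∣ N → ‖e p‖ = 1) (h1 : a 1 = 1)
    (hT : ∀ p : ℕ, p.Prime → ¬ p ∣ N → ∀ n : ℕ,
      a (p * n) + e p * (if p ∣ n then a (n / p) else 0) = a p * a n)
    (C : ℝ) (hmean : ∀ M : ℕ, ∑ n ∈ Icc 1 M, ‖a n‖ ^ 2 ≤ C * M) :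
    ∃ C' : ℝ, ∀ s : ℝ, 1 < s → s ≤ 2 → ∀ P : Finset ℕ, (∀ p ∈ P, p.Prime ∧ ¬ p ∣ N) →
      ∑ p ∈ P, ‖a p‖ ^ 2 * (p : ℝ) ^ (-s) ≤ Real.log (1 / (s - 1)) + C' := by
  have hT' : HeckeRel a N e := hT
  have hC1 : 1 ≤ C := by
    have := hmean 1
    simpa [h1] using this
  refine ⟨Real.log (2 * C) + 2, fun s hs hs2 P hP => ?_⟩
  have hs0 : 0 < s := by linarith
  have hsum := summable_dirCoeff (N := N) hmean hs
  have htsum := tsum_dirCoeff_le (N := N) hmean hs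
  have hs1 : 0 < s - 1 := by linarith
  have hbound : C * (s / (s - 1)) ≤ 2 * C * (1 / (s - 1)) := by
    rw [div_eq_mul_one_div s (s - 1)]
    have hCt : 0 ≤ C * (1 / (s - 1)) := by positivity
    calc C * (s * (1 / (s - 1))) = s * (C * (1 / (s - 1))) := by ring
      _ ≤ 2 * (C * (1 / (s - 1))) := mul_le_mul_of_nonneg_right hs2 hCt
      _ = 2 * C * (1 / (s - 1)) := by ring
  -- Euler product over `P`
  have hfilter : P.filter Nat.Prime = P := Finset.filter_true_of_mem fun p hp => (hP p hp).1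
  have heuler := EulerProduct.prod_filter_prime_tsum_eq_tsum_factoredNumbers
    (f := dirCoeff a N s) (dirCoeff_one h1 s) (fun {m n} hmn => dirCoeff_mul hT' h1 s hmn)
    (summable_norm_iff.2 hsum) P
  rw [hfilter] at heuler
  have hle : ∑' m : Nat.factoredNumbers P, dirCoeff a N s m ≤ ∑' n, dirCoeff a N s n :=
    Summable.tsum_subtype_le _ _ (dirCoeff_nonneg a N s) hsum
  -- local factors
  have hloc : ∀ p ∈ P, (1 - ((p : ℝ) ^ (-s)) ^ 2) * Real.exp (‖a p‖ ^ 2 * (p : ℝ) ^ (-s)) ≤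
      ∑' k : ℕ, dirCoeff a N s (p ^ k) := fun p hp =>
    local_factor_le hT' h1 he (hP p hp).1 (hP p hp).2 hs0 hsum
  have hfac_pos : ∀ p ∈ P,
      0 < (1 - ((p : ℝ) ^ (-s)) ^ 2) * Real.exp (‖a p‖ ^ 2 * (p : ℝ) ^ (-s)) := by
    intro p hp
    have hx0 : (0 : ℝ) ≤ (p : ℝ) ^ (-s) := Real.rpow_nonneg (Nat.cast_nonneg _) _
    have hx1 : (p : ℝ) ^ (-s) < 1 := rpow_neg_lt_one (hP p hp).1 hs0
    have : 0 < 1 - ((p : ℝ) ^ (-s)) ^ 2 := by nlinarith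
    positivity
  have hprod : ∏ p ∈ P, ((1 - ((p : ℝ) ^ (-s)) ^ 2) * Real.exp (‖a p‖ ^ 2 * (p : ℝ) ^ (-s))) ≤
      2 * C * (1 / (s - 1)) := by
    calc ∏ p ∈ P, ((1 - ((p : ℝ) ^ (-s)) ^ 2) * Real.exp (‖a p‖ ^ 2 * (p : ℝ) ^ (-s)))
        ≤ ∏ p ∈ P, ∑' k : ℕ, dirCoeff a N s (p ^ k) :=
          Finset.prod_le_prod (fun p hp => (hfac_pos p hp).le) hloc
      _ = ∑' m : Nat.factoredNumbers P, dirCoeff a N s m := heuler
      _ ≤ ∑' n, dirCoeff a N s n := hle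
      _ ≤ C * (s / (s - 1)) := htsum
      _ ≤ 2 * C * (1 / (s - 1)) := hbound
  have hprod_pos : 0 < ∏ p ∈ P,
      ((1 - ((p : ℝ) ^ (-s)) ^ 2) * Real.exp (‖a p‖ ^ 2 * (p : ℝ) ^ (-s))) :=
    Finset.prod_pos hfac_pos
  have hlog := Real.log_le_log hprod_pos hprod
  rw [Real.log_prod (fun p hp => (hfac_pos p hp).ne'),
    Real.log_mul (by positivity) (by positivity)] at hlog
  have hterm : ∀ p ∈ P, -(2 * (((p : ℝ)) ^ 2)⁻¹) + ‖a p‖ ^ 2 * (p : ℝ) ^ (-s) ≤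
      Real.log ((1 - ((p : ℝ) ^ (-s)) ^ 2) * Real.exp (‖a p‖ ^ 2 * (p : ℝ) ^ (-s))) := by
    intro p hp
    have hx0 : (0 : ℝ) ≤ (p : ℝ) ^ (-s) := Real.rpow_nonneg (Nat.cast_nonneg _) _
    have hx1 : (p : ℝ) ^ (-s) < 1 := rpow_neg_lt_one (hP p hp).1 hs0
    have hpos : 0 < 1 - ((p : ℝ) ^ (-s)) ^ 2 := by nlinarith
    rw [Real.log_mul hpos.ne' (Real.exp_pos _).ne', Real.log_exp]
    have := log_one_sub_ge (hP p hp).1.two_le hs.le
    linarith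
  have hsumle := Finset.sum_le_sum hterm
  rw [Finset.sum_add_distrib] at hsumle
  have hinv : ∑ p ∈ P, (2 * (((p : ℝ)) ^ 2)⁻¹) ≤ 2 := by
    rw [← Finset.mul_sum]
    have := sum_inv_sq_primes_le P (fun p hp => (hP p hp).1.two_le)
    linarith
  have hneg : ∑ p ∈ P, -(2 * (((p : ℝ)) ^ 2)⁻¹) = -∑ p ∈ P, (2 * (((p : ℝ)) ^ 2)⁻¹) := by
    rw [Finset.sum_neg_distrib]
  linarith

end Final

end Fermat.Agent.S48x.Rankin
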